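import Mathlib

/-!
# The sum of two Cantor sets

Intervals split in two with a gap that is at most either part, at least a fixed proportion of the
whole, and not growing from parent to child: the sum of two such sets is the sum of their hulls,
as the pair may be split at the larger gap without losing a point (Hall).
-/

set_option autoImplicit false

noncomputable section

namespace FA.HallRay

open Filter Topology

/-- A binary tree of intervals with small gaps. -/
structure GapTree (T : Type*) where
  /-- The left end. -/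
  lo : T → ℝ
  /-- The right end. -/
  hi : T → ℝ
  /-- The left part. -/
  left : T → T
  /-- The right part. -/
  right : T → T
  /-- A lower bound for the relative size of a gap. -/
  ratio : ℝ
  ratio_pos : 0 < ratio
  lo_left : ∀ t, lo (left t) = lo t
  hi_right : ∀ t, hi (right t) = hi t
  gap_le_left : ∀ t, lo (right t) - hi (left t) ≤ hi (left t) - lo (left t)
  gap_le_right : ∀ t, lo (right t) - hi (left t) ≤ hi (right t) - lo (right t)
  ratio_le : ∀ t, ratio * (hi t - lo t) ≤ lo (right t) - hi (left t)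
  lo_lt_hi : ∀ t, lo t < hi t
  gap_left : ∀ t, lo (right (left t)) - hi (left (left t)) ≤ lo (right t) - hi (left t)
  gap_right : ∀ t, lo (right (right t)) - hi (left (right t)) ≤ lo (right t) - hi (left t)

variable {T : Type*} (G : GapTree T)

/-- The gap. -/
def GapTree.gap (t : T) : ℝ := G.lo (G.right t) - G.hi (G.left t)

/-- The length. -/
def GapTree.len (t : T) : ℝ := G.hi t - G.lo t

theorem GapTree.len_pos (t : T) : 0 < G.len t := sub_pos.2 (G.lo_lt_hi t)

theorem GapTree.len_split (t : T) :
    G.len t = G.len (G.left t) + G.gap t + G.len (G.right t) := by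
  simp only [GapTree.len, GapTree.gap, G.lo_left, G.hi_right]
  ring

theorem GapTree.gap_le_len (t : T) : G.gap t ≤ G.len t := by
  have h := G.gap_le_left t
  have h2 := G.len_split t
  have h3 := G.len_pos (G.right t)
  have h4 := G.len_pos (G.left t)
  simp only [GapTree.gap, GapTree.len] at *
  linarith

theorem GapTree.ratio_le_one (t : T) : G.ratio ≤ 1 := by
  by_contra h
  have h1 : G.ratio * G.len t ≤ G.gap t := G.ratio_le t
  have h2 := G.gap_le_len t
  have h3 := mul_pos (sub_pos.2 (not_le.1 h)) (G.len_pos t)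
  linarith

/-- The pairs which cannot lose a point. -/
def GapTree.Good (x : ℝ) (p : T × T) : Prop :=
  G.lo p.1 + G.lo p.2 ≤ x ∧ x ≤ G.hi p.1 + G.hi p.2 ∧ G.gap p.1 ≤ G.len p.2 ∧ G.gap p.2 ≤ G.len p.1

theorem GapTree.exists_split_fst {x : ℝ} {s t : T} (h : G.Good x (s, t))
    (hle : G.gap t ≤ G.gap s) :
    ∃ s', G.Good x (s', t) ∧
      G.len s' + G.len t ≤ (1 - G.ratio ^ 2 / 2) * (G.len s + G.len t) := by
  obtain ⟨h1, h2, h3, h4⟩ := h
  have hs := G.len_split s
  have hdec : ∀ s', G.len s' ≤ G.len s - G.gap s →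
      G.len s' + G.len t ≤ (1 - G.ratio ^ 2 / 2) * (G.len s + G.len t) := by
    intro s' hs'
    have a1 : G.ratio * G.len s ≤ G.gap s := G.ratio_le s
    have a2 : G.ratio * G.len t ≤ G.gap t := G.ratio_le t
    have a3 := G.gap_le_len s
    have a4 := mul_le_mul_of_nonneg_left (a2.trans (hle.trans a3)) G.ratio_pos.le
    have a5 : G.ratio ^ 2 * G.len s ≤ G.ratio * G.len s :=
      mul_le_mul_of_nonneg_right (by
        rw [sq]
        exact mul_le_of_le_one_left G.ratio_pos.le (G.ratio_le_one s)) (G.len_pos s).le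
    have e : G.ratio ^ 2 * G.len t = G.ratio * (G.ratio * G.len t) := by ring
    linarith
  by_cases hx : x ≤ G.hi (G.left s) + G.hi t
  · refine ⟨G.left s, ⟨by simpa [G.lo_left] using h1, hx, ?_, ?_⟩, hdec _ ?_⟩
    · exact (G.gap_left s).trans h3
    · exact hle.trans (G.gap_le_left s)
    · linarith [G.len_pos (G.right s)]
  · refine ⟨G.right s, ⟨?_, by simpa [G.hi_right] using h2, ?_, ?_⟩, hdec _ ?_⟩
    · simp only [GapTree.gap, GapTree.len] at h3
      linarith
    · exact (G.gap_right s).trans h3
    · exact hle.trans (G.gap_le_right s)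
    · linarith [G.len_pos (G.left s)]

theorem GapTree.exists_split {x : ℝ} {p : T × T} (h : G.Good x p) :
    ∃ p' : T × T, G.Good x p' ∧
      G.len p'.1 + G.len p'.2 ≤ (1 - G.ratio ^ 2 / 2) * (G.len p.1 + G.len p.2) := by
  obtain ⟨s, t⟩ := p
  rcases le_total (G.gap t) (G.gap s) with hle | hle
  · obtain ⟨s', h1, h2⟩ := G.exists_split_fst h hle
    exact ⟨(s', t), h1, h2⟩
  · obtain ⟨h1, h2, h3, h4⟩ := h
    obtain ⟨t', ⟨g1, g2, g3, g4⟩, hd⟩ := G.exists_split_fst (x := x) (s := t) (t := s)
      ⟨by linarith, by linarith, h4, h3⟩ hle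
    exact ⟨(s, t'), ⟨by simp only at *; linarith, by simp only at *; linarith, g4, g3⟩,
      by simp only; linarith⟩

/-- **Hall's lemma.** -/
theorem GapTree.mem_sum {C : Set ℝ} (hC : IsClosed C) (hlo : ∀ t, G.lo t ∈ C)
    (hbd : Bornology.IsBounded C) {x : ℝ} {p : T × T} (h : G.Good x p) :
    ∃ u ∈ C, ∃ v ∈ C, u + v = x := by
  choose! f hf hd using fun q (hq : G.Good x q) => G.exists_split hq
  have hgood : ∀ k, G.Good x (f^[k] p) := by
    intro k
    induction k with
    | zero => exact h
    | succ k ih => rw [Function.iterate_succ_apply']; exact hf _ ih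
  obtain ⟨θ, hθ⟩ : ∃ θ, θ = 1 - G.ratio ^ 2 / 2 := ⟨_, rfl⟩
  have hθ0 : 0 ≤ θ ∧ θ < 1 := by
    have := G.ratio_le_one p.1
    have h0 := G.ratio_pos
    rw [hθ]
    constructor <;> nlinarith
  have hlen : ∀ k, G.len (f^[k] p).1 + G.len (f^[k] p).2 ≤
      θ ^ k * (G.len p.1 + G.len p.2) := by
    intro k
    induction k with
    | zero => simp
    | succ k ih =>
      rw [Function.iterate_succ_apply', pow_succ', mul_assoc]
      exact (hd _ (hgood k)).trans (hθ ▸ mul_le_mul_of_nonneg_left ih hθ0.1)
  have hK : IsCompact C := Metric.isCompact_of_isClosed_isBounded hC hbd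
  obtain ⟨u, hu, φ, hφ, hlim⟩ := hK.tendsto_subseq (x := fun k => G.lo (f^[k] p).1) fun k => hlo _
  have hsum : Tendsto (fun k => G.lo (f^[k] p).1 + G.lo (f^[k] p).2) atTop (𝓝 x) := by
    have h0 : Tendsto (fun k => x - θ ^ k * (G.len p.1 + G.len p.2)) atTop (𝓝 x) := by
      simpa using ((tendsto_pow_atTop_nhds_zero_of_lt_one hθ0.1 hθ0.2).mul_const
        (G.len p.1 + G.len p.2)).const_sub x
    refine tendsto_of_tendsto_of_tendsto_of_le_of_le h0 tendsto_const_nhds (fun k => ?_)
      fun k => (hgood k).1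
    have h1 := (hgood k).2.1
    have h2 := hlen k
    simp only [GapTree.len] at h2 ⊢
    linarith
  refine ⟨u, hu, x - u, hC.mem_of_tendsto ((hsum.comp hφ.tendsto_atTop).sub hlim)
    (Eventually.of_forall fun k => ?_), add_sub_cancel u x⟩
  simpa using hlo _

end FA.HallRay
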