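import Fermat.Agent.HallRay.Digits
import Fermat.Agent.HallRay.Tree

/-!
# The cylinders of the digits `1, …, 4`

A cylinder is a Möbius map of `[0; d, …]`, `d ≥ j`, split into `d = j` and `d > j`; the gaps are
small enough for Hall's lemma, so `F + F = [√2 - 1, 4 (√2 - 1)]`.
-/

set_option autoImplicit false

noncomputable section

namespace FA.HallRay

/-- A cylinder: `y ↦ (num + num' y) / (den + den' y)` on the values with first digit at least
`low`. -/
structure Cylinder where
  /-- The numerator. -/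
  num : ℝ
  /-- The previous numerator. -/
  num' : ℝ
  /-- The denominator. -/
  den : ℝ
  /-- The previous denominator. -/
  den' : ℝ
  /-- The least first digit allowed. -/
  low : ℕ
  one_le_den : 1 ≤ den
  den'_nonneg : 0 ≤ den'
  den'_le : den' ≤ den
  one_le_low : 1 ≤ low
  low_le : low ≤ 3
  det_eq : num' * den - num * den' = 1 ∨ num' * den - num * den' = -1
  maps_mem : ∀ y ∈ boundedSet 4, (num + num' * y) / (den + den' * y) ∈ boundedSet 4

namespace Cylinder

variable (t : Cylinder)

/-- The map, at `1 / a`. -/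
def pt (a : ℝ) : ℝ := (t.num * a + t.num') / (t.den * a + t.den')

/-- The determinant. -/
def det : ℝ := t.num' * t.den - t.num * t.den'

/-- The length between the points at `1 / b` and `1 / a`. -/
def width (a b : ℝ) : ℝ := (b - a) / ((t.den * a + t.den') * (t.den * b + t.den'))

theorem den_mul_pos {a : ℝ} (ha : 0 < a) : 0 < t.den * a + t.den' := by
  have := t.one_le_den
  have := t.den'_nonneg
  positivity

theorem pt_sub {a b : ℝ} (ha : 0 < a) (hb : 0 < b) : t.pt a - t.pt b = t.det * t.width a b := by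
  have h1 := t.den_mul_pos ha
  have h2 := t.den_mul_pos hb
  rw [pt, pt, width, det, div_sub_div _ _ h1.ne' h2.ne', mul_div_assoc']
  congr 1
  ring

theorem width_pos {a b : ℝ} (ha : 0 < a) (hab : a < b) : 0 < t.width a b :=
  div_pos (sub_pos.2 hab) (mul_pos (t.den_mul_pos ha) (t.den_mul_pos (ha.trans hab)))

theorem pt_mem {a : ℝ} (ha : 0 < a) (h : 1 / a ∈ boundedSet 4) : t.pt a ∈ boundedSet 4 := by
  have h2 := t.maps_mem _ h
  have h1 := t.den_mul_pos ha
  rwa [show (t.num + t.num' * (1 / a)) / (t.den + t.den' * (1 / a)) = t.pt a by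
    rw [pt]; field_simp] at h2

/-- Appending the digit `d`. -/
def push (d : ℕ) (hd : 1 ≤ d) (hd4 : d ≤ 4) : Cylinder where
  num := t.num * d + t.num'
  num' := t.num
  den := t.den * d + t.den'
  den' := t.den
  low := 1
  one_le_den := by
    have h1 : (1 : ℝ) ≤ d := by exact_mod_cast hd
    have := one_le_mul_of_one_le_of_one_le t.one_le_den h1
    linarith [t.den'_nonneg]
  den'_nonneg := by linarith [t.one_le_den]
  den'_le := by
    have h1 : (1 : ℝ) ≤ d := by exact_mod_cast hd
    have := le_mul_of_one_le_right (show 0 ≤ t.den by linarith [t.one_le_den]) h1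
    linarith [t.den'_nonneg]
  one_le_low := le_rfl
  low_le := by norm_num
  det_eq := by
    rcases t.det_eq with h | h
    · exact Or.inr (by linear_combination -h)
    · exact Or.inl (by linear_combination -h)
  maps_mem := fun y hy => by
    have h1 : (1 : ℝ) ≤ d := by exact_mod_cast hd
    have h2 : 0 ≤ y := by linarith [(boundedSet_subset hy).1, lowEnd_bounds.1]
    have h3 : 0 < (d : ℝ) + y := by linarith
    have h4 := t.pt_mem h3 (one_div_add_mem_boundedSet hd hd4 hy)
    rwa [pt, show t.num * ((d : ℝ) + y) + t.num' = t.num * d + t.num' + t.num * y by ring,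
      show t.den * ((d : ℝ) + y) + t.den' = t.den * d + t.den' + t.den * y by ring] at h4

theorem pt_push (d : ℕ) (hd : 1 ≤ d) (hd4 : d ≤ 4) {a : ℝ} (ha : 0 < a) :
    (t.push d hd hd4).pt a = t.pt ((d : ℝ) + 1 / a) := by
  have h1 : (1 : ℝ) ≤ d := by exact_mod_cast hd
  have := t.den_mul_pos (show (0 : ℝ) < d + 1 / a by positivity)
  simp only [pt, push]
  field_simp
  ring

/-- `d = low`. -/
def first : Cylinder := t.push t.low t.one_le_low (t.low_le.trans (by norm_num))

/-- `d > low`. -/
def rest : Cylinder :=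
  if h : t.low < 3 then { t with low := t.low + 1, one_le_low := by omega, low_le := h }
  else t.push 4 (by norm_num) le_rfl

/-- `low + [0; 4, 1, …]`: the reciprocal of the largest value. -/
def uPt : ℝ := t.low + lowEnd

/-- `low + [0; 1, 4, …]`. -/
def vPt : ℝ := t.low + highEnd

/-- `low + 1 + [0; 4, 1, …]`. -/
def wPt : ℝ := t.low + 1 + lowEnd

/-- `4 + [0; 1, 4, …]`. -/
def zPt : ℝ := 4 + highEnd

/-- The left end. -/
def lo : ℝ := if t.det = 1 then t.pt zPt else t.pt t.uPt

/-- The right end. -/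
def hi : ℝ := if t.det = 1 then t.pt t.uPt else t.pt zPt

/-- The left part. -/
def leftPart : Cylinder := if t.det = 1 then t.rest else t.first

/-- The right part. -/
def rightPart : Cylinder := if t.det = 1 then t.first else t.rest

theorem points_bounds : 1 < t.uPt ∧ t.uPt < t.vPt ∧ t.vPt < t.wPt ∧ t.wPt < zPt ∧
    t.vPt ≤ 4 ∧ t.wPt ≤ 5 ∧ zPt ≤ 5 := by
  obtain ⟨h1, h2, h3⟩ := lowEnd_bounds
  have h4 : (1 : ℝ) ≤ t.low := by exact_mod_cast t.one_le_low
  have h5 : (t.low : ℝ) ≤ 3 := by exact_mod_cast t.low_le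
  unfold uPt vPt wPt zPt
  refine ⟨?_, ?_, ?_, ?_, ?_, ?_, ?_⟩ <;> linarith

theorem det_ne : ¬t.det = 1 → t.det = -1 := fun h => t.det_eq.resolve_left h

theorem det_first : t.first.det = -t.det := by
  simp only [det, first, push]
  ring

theorem first_lo_hi :
    (t.det = 1 → t.first.lo = t.pt t.vPt ∧ t.first.hi = t.pt t.uPt) ∧
      (¬t.det = 1 → t.first.lo = t.pt t.uPt ∧ t.first.hi = t.pt t.vPt) := by
  obtain ⟨h1, -, h3⟩ := lowEnd_bounds
  obtain ⟨e1, e2⟩ := ends_eq
  have hv : t.first.pt t.first.uPt = t.pt t.vPt := by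
    rw [show t.first.uPt = 1 + lowEnd by simp [uPt, first, push], first,
      pt_push _ _ _ _ (by linarith), e2, vPt]
  have hu : t.first.pt zPt = t.pt t.uPt := by
    rw [first, pt_push _ _ _ _ (by unfold zPt; linarith), zPt, e1, uPt]
  constructor <;> intro h
  · have hd : ¬t.first.det = 1 := by rw [det_first, h]; norm_num
    rw [lo, hi, if_neg hd, if_neg hd]
    exact ⟨hv, hu⟩
  · have hd : t.first.det = 1 := by rw [det_first, t.det_ne h]; norm_num
    rw [lo, hi, if_pos hd, if_pos hd]
    exact ⟨hu, hv⟩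

theorem rest_lo_hi :
    (t.det = 1 → t.rest.lo = t.pt zPt ∧ t.rest.hi = t.pt t.wPt) ∧
      (¬t.det = 1 → t.rest.lo = t.pt t.wPt ∧ t.rest.hi = t.pt zPt) := by
  obtain ⟨h1, -, h3⟩ := lowEnd_bounds
  obtain ⟨e1, e2⟩ := ends_eq
  by_cases hlow : t.low < 3
  · have hd : t.rest.det = t.det := by simp [rest, dif_pos hlow, det]
    have hu : t.rest.pt t.rest.uPt = t.pt t.wPt := by
      simp [rest, dif_pos hlow, pt, uPt, wPt]
    have hz : t.rest.pt zPt = t.pt zPt := by simp [rest, dif_pos hlow, pt]
    constructor <;> intro h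
    · rw [lo, hi, if_pos (hd.trans h), if_pos (hd.trans h)]
      exact ⟨hz, hu⟩
    · rw [lo, hi, if_neg (hd ▸ h), if_neg (hd ▸ h)]
      exact ⟨hu, hz⟩
  · have hl : t.low = 3 := by have := t.low_le; omega
    have hd : t.rest.det = -t.det := by
      simp only [rest, dif_neg hlow, det, push]
      ring
    have hu : t.rest.pt t.rest.uPt = t.pt zPt := by
      rw [show t.rest.uPt = 1 + lowEnd by simp [rest, dif_neg hlow, uPt, push], rest, dif_neg hlow,
        pt_push _ _ _ _ (by linarith), e2, zPt, Nat.cast_ofNat]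
    have hz : t.rest.pt zPt = t.pt t.wPt := by
      rw [rest, dif_neg hlow, pt_push _ _ _ _ (by unfold zPt; linarith), zPt, e1, wPt, hl]
      norm_num
    constructor <;> intro h
    · have hd' : ¬t.rest.det = 1 := by rw [hd, h]; norm_num
      rw [lo, hi, if_neg hd', if_neg hd']
      exact ⟨hu, hz⟩
    · have hd' : t.rest.det = 1 := by rw [hd, t.det_ne h]; norm_num
      rw [lo, hi, if_pos hd', if_pos hd']
      exact ⟨hz, hu⟩

theorem lengths :
    t.rightPart.lo - t.leftPart.hi = t.width t.vPt t.wPt ∧ t.hi - t.lo = t.width t.uPt zPt ∧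
    (t.leftPart.hi - t.leftPart.lo = t.width t.uPt t.vPt ∧
        t.rightPart.hi - t.rightPart.lo = t.width t.wPt zPt ∨
      t.leftPart.hi - t.leftPart.lo = t.width t.wPt zPt ∧
        t.rightPart.hi - t.rightPart.lo = t.width t.uPt t.vPt) ∧
    t.leftPart.lo = t.lo ∧ t.rightPart.hi = t.hi := by
  obtain ⟨h1, h2, h3, h4, -, -, -⟩ := t.points_bounds
  by_cases h : t.det = 1
  · obtain ⟨a1, a2⟩ := t.first_lo_hi.1 h
    obtain ⟨b1, b2⟩ := t.rest_lo_hi.1 h
    rw [show t.leftPart = t.rest from if_pos h, show t.rightPart = t.first from if_pos h, a1, a2,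
      b1, b2, lo, hi, if_pos h, if_pos h, t.pt_sub (by linarith) (by linarith),
      t.pt_sub (by linarith) (by linarith), t.pt_sub (by linarith) (by linarith),
      t.pt_sub (by linarith) (by linarith), h]
    simp
  · obtain ⟨a1, a2⟩ := t.first_lo_hi.2 h
    obtain ⟨b1, b2⟩ := t.rest_lo_hi.2 h
    rw [show t.leftPart = t.first from if_neg h, show t.rightPart = t.rest from if_neg h, a1, a2,
      b1, b2, lo, hi, if_neg h, if_neg h]
    have e : ∀ a b, 0 < a → 0 < b → t.pt b - t.pt a = t.width a b := fun a b ha hb => by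
      rw [← neg_sub, t.pt_sub ha hb, t.det_ne h]
      ring
    rw [e _ _ (by linarith) (by linarith), e _ _ (by linarith) (by linarith),
      e _ _ (by linarith) (by linarith), e _ _ (by linarith) (by linarith)]
    simp

theorem gap_le_parts : t.width t.vPt t.wPt ≤ t.width t.uPt t.vPt ∧
    t.width t.vPt t.wPt ≤ t.width t.wPt zPt := by
  obtain ⟨h1, h2, h3, h4, -, -, -⟩ := t.points_bounds
  obtain ⟨m1, m2, m3⟩ := lowEnd_bounds
  have hq := t.one_le_den
  have hq' := t.den'_nonneg
  have hj : (1 : ℝ) ≤ t.low := by exact_mod_cast t.one_le_low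
  have hj3 : (t.low : ℝ) ≤ 3 := by exact_mod_cast t.low_le
  obtain ⟨A, hA⟩ : ∃ A, A = t.den * t.uPt + t.den' := ⟨_, rfl⟩
  obtain ⟨B, hB⟩ : ∃ B, B = t.den * t.vPt + t.den' := ⟨_, rfl⟩
  obtain ⟨C, hC⟩ : ∃ C, C = t.den * t.wPt + t.den' := ⟨_, rfl⟩
  obtain ⟨D, hD⟩ : ∃ D, D = t.den * zPt + t.den' := ⟨_, rfl⟩
  have hA0 : 0 < A := hA ▸ t.den_mul_pos (by linarith)
  have hB0 : 0 < B := hB ▸ t.den_mul_pos (by linarith)
  have hC0 : 0 < C := hC ▸ t.den_mul_pos (by linarith)
  have hD0 : 0 < D := hD ▸ t.den_mul_pos (by linarith)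
  simp only [width, ← hA, ← hB, ← hC, ← hD]
  constructor
  · rw [div_le_div_iff₀ (by positivity) (by positivity)]
    have hAC : A ≤ C := by
      rw [hA, hC]
      exact add_le_add (mul_le_mul_of_nonneg_left (by linarith) (by linarith)) le_rfl
    have hu : t.wPt - t.vPt ≤ t.vPt - t.uPt := by unfold uPt vPt wPt; linarith
    calc (t.wPt - t.vPt) * (A * B) ≤ (t.vPt - t.uPt) * (C * B) :=
          mul_le_mul hu (mul_le_mul_of_nonneg_right hAC hB0.le) (by positivity) (by linarith)
      _ = _ := by ring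
  · rw [div_le_div_iff₀ (by positivity) (by positivity)]
    suffices h : (t.wPt - t.vPt) * D ≤ (zPt - t.wPt) * B by
      calc (t.wPt - t.vPt) * (C * D) = (t.wPt - t.vPt) * D * C := by ring
        _ ≤ (zPt - t.wPt) * B * C := mul_le_mul_of_nonneg_right h hC0.le
        _ = _ := by ring
    have e1 : (t.wPt - t.vPt) * zPt ≤ (zPt - t.wPt) * t.vPt := by
      have a1 : t.wPt - t.vPt ≤ 38 / 100 := by unfold vPt wPt; linarith
      have a2 : zPt ≤ 4833 / 1000 := by unfold zPt; linarith
      have a3 : 62 / 100 * 3 ≤ (zPt - t.wPt) * t.vPt := by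
        unfold zPt wPt vPt
        nlinarith
      have := mul_le_mul a1 a2 (by linarith) (by norm_num)
      linarith
    have e2 : t.wPt - t.vPt ≤ zPt - t.wPt := by unfold zPt wPt vPt; linarith
    rw [hB, hD]
    calc (t.wPt - t.vPt) * (t.den * zPt + t.den')
        = t.den * ((t.wPt - t.vPt) * zPt) + t.den' * (t.wPt - t.vPt) := by ring
      _ ≤ t.den * ((zPt - t.wPt) * t.vPt) + t.den' * (zPt - t.wPt) := by gcongr
      _ = _ := by ring

theorem width_rest_child (s : Cylinder) (hs : s = t.first ∨ s = t.rest) :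
    s.width s.vPt s.wPt ≤ t.width t.vPt t.wPt := by
  obtain ⟨h1, h2, h3, h4, -, -, -⟩ := t.points_bounds
  obtain ⟨g1, g2, g3, g4, -, -, -⟩ := s.points_bounds
  obtain ⟨m1, m2, m3⟩ := lowEnd_bounds
  have hq := t.one_le_den
  have hq' := t.den'_nonneg
  have hj : (1 : ℝ) ≤ t.low := by exact_mod_cast t.one_le_low
  have key : t.den * t.vPt + t.den' ≤ s.den * s.vPt + s.den' ∧
      t.den * t.wPt + t.den' ≤ s.den * s.wPt + s.den' := by
    have hpush : ∀ (d : ℕ) (hd : 1 ≤ d) (hd4 : d ≤ 4), s = t.push d hd hd4 → t.low ≤ d →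
        t.den * t.vPt + t.den' ≤ s.den * s.vPt + s.den' ∧
          t.den * t.wPt + t.den' ≤ s.den * s.wPt + s.den' := by
      intro d hd hd4 e hle
      have hdr : (t.low : ℝ) ≤ d := by exact_mod_cast hle
      subst e
      simp only [vPt, wPt, push, Nat.cast_one]
      obtain ⟨T, hT⟩ : ∃ T, T = t.den * d + t.den' := ⟨_, rfl⟩
      have hT1 : t.den * t.low + t.den' ≤ T := by rw [hT]; gcongr
      have hT2 : t.den ≤ T := le_trans (le_mul_of_one_le_right (by linarith) hj) (by linarith)
      rw [← hT]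
      have c1 : t.den * highEnd ≤ t.den * 1 := mul_le_mul_of_nonneg_left (by linarith) (by linarith)
      have c3 : t.den * lowEnd ≤ T * lowEnd := mul_le_mul_of_nonneg_right hT2 (by linarith)
      have c4 : 0 ≤ T * highEnd := by
        have : 0 ≤ T := by linarith
        have : 0 ≤ highEnd := by linarith
        positivity
      constructor <;> linarith
    rcases hs with e | e
    · exact hpush t.low _ (t.low_le.trans (by norm_num)) e le_rfl
    by_cases hlow : t.low < 3
    · rw [rest, dif_pos hlow] at e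
      subst e
      simp only [vPt, wPt, Nat.cast_add, Nat.cast_one]
      constructor <;> linarith
    · rw [rest, dif_neg hlow] at e
      exact hpush 4 _ le_rfl e (t.low_le.trans (by norm_num))
  have hdiff : s.wPt - s.vPt = t.wPt - t.vPt := by unfold wPt vPt; ring
  rw [width, width, hdiff]
  exact div_le_div_of_nonneg_left (by linarith)
    (mul_pos (t.den_mul_pos (by linarith)) (t.den_mul_pos (by linarith)))
    (mul_le_mul key.1 key.2 (t.den_mul_pos (by linarith)).le (s.den_mul_pos (by linarith)).le)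

theorem ratio_width : (1 / 1000 : ℝ) * t.width t.uPt zPt ≤ t.width t.vPt t.wPt := by
  obtain ⟨h1, h2, h3, h4, h5, h6, h7⟩ := t.points_bounds
  obtain ⟨m1, m2, m3⟩ := lowEnd_bounds
  have hq := t.one_le_den
  have hq' := t.den'_nonneg
  have hq'' := t.den'_le
  have hqq : (0 : ℝ) < t.den * t.den := by positivity
  have a1 : t.width t.uPt zPt ≤ 4 / (t.den * t.den) := by
    refine div_le_div₀ (by norm_num) (by linarith) hqq (mul_le_mul ?_ ?_ (by linarith) ?_)
    · have := le_mul_of_one_le_right (show 0 ≤ t.den by linarith) h1.le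
      linarith
    · have := le_mul_of_one_le_right (show 0 ≤ t.den by linarith) (show 1 ≤ zPt by linarith)
      linarith
    · exact (t.den_mul_pos (by linarith)).le
  have a2 : (1 / 100 : ℝ) / (t.den * t.den) ≤ t.width t.vPt t.wPt := by
    rw [width, div_le_div_iff₀ hqq
      (mul_pos (t.den_mul_pos (by linarith)) (t.den_mul_pos (by linarith)))]
    have b1 : t.den * t.vPt + t.den' ≤ t.den * 5 := by
      have := mul_le_mul_of_nonneg_left h5 (show 0 ≤ t.den by linarith)
      linarith
    have b2 : t.den * t.wPt + t.den' ≤ t.den * 6 := by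
      have := mul_le_mul_of_nonneg_left h6 (show 0 ≤ t.den by linarith)
      linarith
    have b3 := mul_le_mul b1 b2 (t.den_mul_pos (by linarith)).le (by positivity)
    have b4 : 37 / 100 ≤ t.wPt - t.vPt := by unfold vPt wPt; linarith
    have := mul_le_mul_of_nonneg_right b4 hqq.le
    linarith
  have a3 : (1 / 1000 : ℝ) * (4 / (t.den * t.den)) ≤ (1 / 100 : ℝ) / (t.den * t.den) := by
    rw [mul_div_assoc']
    exact div_le_div_of_nonneg_right (by norm_num) hqq.le
  linarith

theorem part_mem (s : Cylinder) (h : s = t.leftPart ∨ s = t.rightPart) :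
    s = t.first ∨ s = t.rest := by
  unfold leftPart rightPart at h
  split_ifs at h
  exacts [h.symm, h]

end Cylinder

/-- The tree of cylinders. -/
def cylinderTree : GapTree Cylinder where
  lo := Cylinder.lo
  hi := Cylinder.hi
  left := Cylinder.leftPart
  right := Cylinder.rightPart
  ratio := 1 / 1000
  ratio_pos := by norm_num
  lo_left t := t.lengths.2.2.2.1
  hi_right t := t.lengths.2.2.2.2
  gap_le_left t := by
    obtain ⟨h1, -, h3, -, -⟩ := t.lengths
    rcases h3 with ⟨a, -⟩ | ⟨a, -⟩ <;> rw [h1, a]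
    exacts [t.gap_le_parts.1, t.gap_le_parts.2]
  gap_le_right t := by
    obtain ⟨h1, -, h3, -, -⟩ := t.lengths
    rcases h3 with ⟨-, a⟩ | ⟨-, a⟩ <;> rw [h1, a]
    exacts [t.gap_le_parts.2, t.gap_le_parts.1]
  ratio_le t := by
    rw [t.lengths.1, t.lengths.2.1]
    exact t.ratio_width
  lo_lt_hi t := by
    obtain ⟨h1, h2, h3, h4, -, -, -⟩ := t.points_bounds
    have := t.width_pos (show 0 < t.uPt by linarith) (show t.uPt < Cylinder.zPt by linarith)
    rw [← t.lengths.2.1] at this
    linarith
  gap_left t := by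
    rw [t.leftPart.lengths.1, t.lengths.1]
    exact t.width_rest_child _ (t.part_mem _ (Or.inl rfl))
  gap_right t := by
    rw [t.rightPart.lengths.1, t.lengths.1]
    exact t.width_rest_child _ (t.part_mem _ (Or.inr rfl))

/-- The root. -/
def rootCylinder : Cylinder where
  num := 0
  num' := 1
  den := 1
  den' := 0
  low := 1
  one_le_den := le_rfl
  den'_nonneg := le_rfl
  den'_le := zero_le_one
  one_le_low := le_rfl
  low_le := by norm_num
  det_eq := Or.inl (by norm_num)
  maps_mem y hy := by simpa using hy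

theorem cylinder_lo_mem (t : Cylinder) : t.lo ∈ boundedSet 4 := by
  obtain ⟨h1, h2, h3, h4, -, -, -⟩ := t.points_bounds
  unfold Cylinder.lo
  split_ifs
  · refine t.pt_mem (by linarith) ?_
    rw [Cylinder.zPt, ends_eq.1]
    exact lowEnd_mem
  · exact t.pt_mem (by linarith) (one_div_add_mem_boundedSet t.one_le_low
      (t.low_le.trans (by norm_num)) lowEnd_mem)

/-- **Hall's theorem.** -/
theorem hall_sum_set (x : ℝ) :
    (∃ u ∈ boundedSet 4, ∃ v ∈ boundedSet 4, u + v = x) ↔
      x ∈ Set.Icc (√2 - 1) (4 * (√2 - 1)) := by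
  have e1 : √2 - 1 = lowEnd + lowEnd := by unfold lowEnd; ring
  have e2 : 4 * (√2 - 1) = highEnd + highEnd := by unfold highEnd; ring
  rw [e2, e1]
  constructor
  · rintro ⟨u, hu, v, hv, rfl⟩
    obtain ⟨a1, a2⟩ := boundedSet_subset hu
    obtain ⟨b1, b2⟩ := boundedSet_subset hv
    exact ⟨add_le_add a1 b1, add_le_add a2 b2⟩
  · rintro ⟨h1, h2⟩
    have hd : rootCylinder.det = 1 := by simp [Cylinder.det, rootCylinder]
    have elo : rootCylinder.lo = lowEnd := by
      rw [Cylinder.lo, if_pos hd]
      simp only [Cylinder.pt, rootCylinder, Cylinder.zPt, zero_mul, zero_add, one_mul, add_zero]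
      exact ends_eq.1
    have ehi : rootCylinder.hi = highEnd := by
      rw [Cylinder.hi, if_pos hd]
      simp only [Cylinder.pt, rootCylinder, Cylinder.uPt, zero_mul, zero_add, one_mul, add_zero,
        Nat.cast_one]
      exact ends_eq.2
    refine cylinderTree.mem_sum (isCompact_boundedSet 4).isClosed cylinder_lo_mem
      (isCompact_boundedSet 4).isBounded (p := (rootCylinder, rootCylinder))
      ⟨?_, ?_, cylinderTree.gap_le_len _, cylinderTree.gap_le_len _⟩
    · simpa [cylinderTree, elo] using h1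
    · simpa [cylinderTree, ehi] using h2

end FA.HallRay
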