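import Mathlib

/-!
# Continued fractions with given digits

`cfVal n a y = [0; a 0, …, a (n - 1) + y]` contracts by at least `1/4` in two steps, so it tends to
`cfLimit a = [0; a 0, a 1, …]`; with bounded digits the values form a compact set.
-/

set_option autoImplicit false

noncomputable section

namespace FA.HallRay

open Filter Topology

/-- The sequence without its first term. -/
def tailSeq (a : ℕ → ℕ) : ℕ → ℕ := fun i => a (i + 1)

theorem one_le_tailSeq {a : ℕ → ℕ} (ha : ∀ i, 1 ≤ a i) : ∀ i, 1 ≤ tailSeq a i := fun _ => ha _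

/-- `[0; a 0, …, a (n - 1) + y]`. -/
def cfVal : ℕ → (ℕ → ℕ) → ℝ → ℝ
  | 0, _, y => y
  | n + 1, a, y => 1 / ((a 0 : ℝ) + cfVal n (tailSeq a) y)

theorem cfVal_mem_unit : ∀ (n : ℕ) {a : ℕ → ℕ}, (∀ i, 1 ≤ a i) → ∀ {y : ℝ}, y ∈ Set.Icc (0 : ℝ) 1 →
    cfVal n a y ∈ Set.Icc (0 : ℝ) 1
  | 0, _, _, _, hy => hy
  | n + 1, a, ha, y, hy => by
    obtain ⟨h1, -⟩ := cfVal_mem_unit n (one_le_tailSeq ha) hy
    have h2 : (1 : ℝ) ≤ a 0 := by exact_mod_cast ha 0
    refine ⟨one_div_nonneg.2 (by linarith), ?_⟩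
    rw [cfVal, div_le_one (by linarith)]
    linarith

theorem two_step_le {u v z z' : ℝ} (hu : 1 ≤ u) (hv : 1 ≤ v) (hz : 0 ≤ z) (hz' : 0 ≤ z') :
    |1 / (u + 1 / (v + z)) - 1 / (u + 1 / (v + z'))| ≤ |z - z'| / 4 := by
  have h1 : 2 ≤ u * (v + z) + 1 := by nlinarith
  have h2 : 2 ≤ u * (v + z') + 1 := by nlinarith
  have e : ∀ w, 0 ≤ w → 1 / (u + 1 / (v + w)) = (v + w) / (u * (v + w) + 1) := fun w hw => by
    have : 0 < v + w := by linarith
    have : 0 < u * (v + w) + 1 := by positivity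
    field_simp
  rw [e z hz, e z' hz', div_sub_div _ _ (by linarith) (by linarith), abs_div,
    show (v + z) * (u * (v + z') + 1) - (u * (v + z) + 1) * (v + z') = z - z' by ring,
    abs_of_pos (show 0 < (u * (v + z) + 1) * (u * (v + z') + 1) by nlinarith)]
  exact div_le_div_of_nonneg_left (abs_nonneg _) (by norm_num) (by nlinarith)

/-- **Contraction.** -/
theorem abs_cfVal_sub_le : ∀ (n : ℕ) {a : ℕ → ℕ}, (∀ i, 1 ≤ a i) → ∀ {y z : ℝ},
    y ∈ Set.Icc (0 : ℝ) 1 → z ∈ Set.Icc (0 : ℝ) 1 →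
      |cfVal n a y - cfVal n a z| ≤ 2 * (1 / 2 : ℝ) ^ n * |y - z|
  | 0, _, _, y, z, _, _ => by
    simp only [cfVal, pow_zero, mul_one]
    linarith [abs_nonneg (y - z)]
  | 1, a, ha, y, z, hy, hz => by
    have h2 : (1 : ℝ) ≤ a 0 := by exact_mod_cast ha 0
    have hy' : 1 ≤ (a 0 : ℝ) + y := by linarith [hy.1]
    have hz' : 1 ≤ (a 0 : ℝ) + z := by linarith [hz.1]
    simp only [cfVal]
    rw [div_sub_div _ _ (by linarith) (by linarith), one_mul, mul_one, abs_div,
      add_sub_add_left_eq_sub,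
      abs_sub_comm, abs_of_pos (show 0 < ((a 0 : ℝ) + y) * ((a 0 : ℝ) + z) by positivity)]
    refine (div_le_self (abs_nonneg _) (one_le_mul_of_one_le_of_one_le hy' hz')).trans ?_
    norm_num
  | n + 2, a, ha, y, z, hy, hz => by
    have ha2 := one_le_tailSeq (one_le_tailSeq ha)
    have h := abs_cfVal_sub_le n ha2 hy hz
    simp only [cfVal]
    refine (two_step_le (by exact_mod_cast ha 0) (by exact_mod_cast ha _)
      (cfVal_mem_unit n ha2 hy).1 (cfVal_mem_unit n ha2 hz).1).trans ?_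
    rw [pow_add]
    norm_num
    linarith

theorem cfVal_succ_zero : ∀ (n : ℕ) (a : ℕ → ℕ),
    cfVal (n + 1) a 0 = cfVal n a (1 / (a n : ℝ))
  | 0, a => by simp [cfVal]
  | n + 1, a => by
    rw [cfVal, cfVal_succ_zero n (tailSeq a)]
    rfl

theorem abs_cfVal_step_le (n : ℕ) {a : ℕ → ℕ} (ha : ∀ i, 1 ≤ a i) :
    |cfVal n a 0 - cfVal (n + 1) a 0| ≤ 2 * (1 / 2 : ℝ) ^ n := by
  have h1 : (1 : ℝ) ≤ a n := by exact_mod_cast ha n
  have h2 : 1 / (a n : ℝ) ≤ 1 := (div_le_one (by linarith)).2 h1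
  rw [cfVal_succ_zero]
  refine (abs_cfVal_sub_le n ha ⟨le_rfl, zero_le_one⟩ ⟨by positivity, h2⟩).trans
    (mul_le_of_le_one_right (by positivity) ?_)
  rw [zero_sub, abs_neg, abs_of_nonneg (by positivity)]
  exact h2

/-- `[0; a 0, a 1, …]`. -/
def cfLimit (a : ℕ → ℕ) : ℝ := limUnder atTop fun n => cfVal n a 0

theorem tendsto_cfVal {a : ℕ → ℕ} (ha : ∀ i, 1 ≤ a i) :
    Tendsto (fun n => cfVal n a 0) atTop (𝓝 (cfLimit a)) := by
  refine (cauchySeq_of_le_geometric (1 / 2) 2 (by norm_num) fun n => ?_).tendsto_limUnder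
  rw [Real.dist_eq]
  exact abs_cfVal_step_le n ha

theorem cfLimit_mem_unit {a : ℕ → ℕ} (ha : ∀ i, 1 ≤ a i) : cfLimit a ∈ Set.Icc (0 : ℝ) 1 :=
  isClosed_Icc.mem_of_tendsto (tendsto_cfVal ha)
    (Eventually.of_forall fun n => cfVal_mem_unit n ha ⟨le_rfl, zero_le_one⟩)

theorem cfLimit_step {a : ℕ → ℕ} (ha : ∀ i, 1 ≤ a i) :
    cfLimit a = 1 / ((a 0 : ℝ) + cfLimit (tailSeq a)) := by
  have h := ((tendsto_cfVal ha).comp (tendsto_add_atTop_nat 1))
  have h1 : (1 : ℝ) ≤ a 0 := by exact_mod_cast ha 0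
  have h2 := (cfLimit_mem_unit (one_le_tailSeq ha)).1
  refine tendsto_nhds_unique h ?_
  simp only [Function.comp_def, cfVal]
  exact tendsto_const_nhds.div (tendsto_const_nhds.add (tendsto_cfVal (one_le_tailSeq ha)))
    (by positivity)

theorem cfLimit_pos {a : ℕ → ℕ} (ha : ∀ i, 1 ≤ a i) : 0 < cfLimit a := by
  have h1 : (1 : ℝ) ≤ a 0 := by exact_mod_cast ha 0
  have h2 := (cfLimit_mem_unit (one_le_tailSeq ha)).1
  rw [cfLimit_step ha]
  positivity

theorem cfLimit_lt_one {a : ℕ → ℕ} (ha : ∀ i, 1 ≤ a i) : cfLimit a < 1 := by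
  have h1 : (1 : ℝ) ≤ a 0 := by exact_mod_cast ha 0
  have h2 := cfLimit_pos (one_le_tailSeq ha)
  rw [cfLimit_step ha, div_lt_one (by linarith)]
  linarith

/-- The `n`-fold tail. -/
def shiftSeq (a : ℕ → ℕ) (n : ℕ) : ℕ → ℕ := fun i => a (n + i)

theorem cfLimit_unfold : ∀ (n : ℕ) {a : ℕ → ℕ}, (∀ i, 1 ≤ a i) →
    cfLimit a = cfVal n a (cfLimit (shiftSeq a n))
  | 0, a, _ => by
    simp [cfVal, show shiftSeq a 0 = a from funext fun i => congrArg a (Nat.zero_add i)]
  | n + 1, a, ha => by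
    rw [cfVal, cfLimit_step ha, cfLimit_unfold n (one_le_tailSeq ha),
      show shiftSeq a (n + 1) = shiftSeq (tailSeq a) n from funext fun i => by
        simp [shiftSeq, tailSeq, Nat.add_right_comm]]

theorem cfVal_congr : ∀ (n : ℕ) {a b : ℕ → ℕ}, (∀ i < n, a i = b i) → ∀ y : ℝ,
    cfVal n a y = cfVal n b y
  | 0, _, _, _, _ => rfl
  | n + 1, a, b, h, y => by
    rw [cfVal, cfVal, h 0 n.succ_pos,
      cfVal_congr n (a := tailSeq a) (b := tailSeq b) (fun i hi => h (i + 1) (by omega)) y]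

/-- Sequences with a common start have close values. -/
theorem abs_cfLimit_sub_le {a b : ℕ → ℕ} {n : ℕ} (ha : ∀ i, 1 ≤ a i) (hb : ∀ i, 1 ≤ b i)
    (h : ∀ i < n, a i = b i) : |cfLimit a - cfLimit b| ≤ 2 * (1 / 2 : ℝ) ^ n := by
  have hy := cfLimit_mem_unit (a := shiftSeq a n) fun i => ha _
  have hz := cfLimit_mem_unit (a := shiftSeq b n) fun i => hb _
  rw [cfLimit_unfold n ha, cfLimit_unfold n hb, ← cfVal_congr n h]
  refine (abs_cfVal_sub_le n ha hy hz).trans (mul_le_of_le_one_right (by positivity) ?_)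
  rw [abs_le]
  constructor <;> linarith [hy.1, hy.2, hz.1, hz.2]

/-- The values with all digits in `1, …, B`. -/
def boundedSet (B : ℕ) : Set ℝ :=
  {x | ∃ a : ℕ → ℕ, (∀ i, 1 ≤ a i ∧ a i ≤ B) ∧ x = cfLimit a}

theorem isCompact_boundedSet (B : ℕ) : IsCompact (boundedSet B) := by
  obtain ⟨g, hg⟩ : ∃ g : (ℕ → Fin B) → ℕ → ℕ, g = fun f i => (f i).val + 1 := ⟨_, rfl⟩
  have hg1 : ∀ f i, 1 ≤ g f i := fun f i => hg ▸ Nat.le_add_left 1 _
  have himg : boundedSet B = Set.range fun f => cfLimit (g f) := by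
    ext x
    constructor
    · rintro ⟨a, ha, rfl⟩
      refine ⟨fun i => ⟨a i - 1, by have := ha i; omega⟩, congrArg cfLimit ?_⟩
      funext i
      have := ha i
      rw [hg]
      simp only
      omega
    · rintro ⟨f, rfl⟩
      exact ⟨g f, fun i => ⟨hg1 f i, hg ▸ Nat.succ_le_of_lt (f i).2⟩, rfl⟩
  have hcont : ∀ n, Continuous fun f => cfVal n (g f) 0 := fun n => by
    have hloc : IsLocallyConstant fun f : ℕ → Fin B => cfVal n (g f) 0 := by
      refine (IsLocallyConstant.iff_eventually_eq _).2 fun f => ?_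
      have hev : ∀ᶠ f' in 𝓝 f, ∀ i < n, f' i = f i := by
        refine (Set.finite_Iio n).eventually_all.2 fun i _ => ?_
        exact (continuous_apply i).continuousAt.preimage_mem_nhds
          (IsOpen.mem_nhds (isOpen_discrete _) (Set.mem_singleton (f i)))
      exact hev.mono fun f' hf' => cfVal_congr n (fun i hi => by rw [hg]; simp [hf' i hi]) 0
    exact hloc.continuous
  have hlim : TendstoUniformly (fun n f => cfVal n (g f) 0) (fun f => cfLimit (g f)) atTop := by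
    rw [Metric.tendstoUniformly_iff]
    intro ε hε
    have h0 : Tendsto (fun n => 2 * (1 / 2 : ℝ) ^ n) atTop (𝓝 0) := by
      simpa using (tendsto_pow_atTop_nhds_zero_of_lt_one (by norm_num : (0 : ℝ) ≤ 1 / 2)
        (by norm_num)).const_mul 2
    filter_upwards [h0.eventually (eventually_lt_nhds hε)] with n hn f
    refine lt_of_le_of_lt ?_ hn
    rw [Real.dist_eq, cfLimit_unfold n (hg1 f)]
    have hy := cfLimit_mem_unit (a := shiftSeq (g f) n) fun i => hg1 f _
    refine (abs_cfVal_sub_le n (hg1 f) hy ⟨le_rfl, zero_le_one⟩).trans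
      (mul_le_of_le_one_right (by positivity) ?_)
    rw [sub_zero, abs_of_nonneg hy.1]
    exact hy.2
  rw [himg]
  exact isCompact_range (hlim.continuous (Eventually.of_forall hcont).frequently)

theorem one_div_add_mem_boundedSet {B d : ℕ} (hd : 1 ≤ d) (hdB : d ≤ B) {y : ℝ}
    (hy : y ∈ boundedSet B) : 1 / ((d : ℝ) + y) ∈ boundedSet B := by
  obtain ⟨a, ha, rfl⟩ := hy
  refine ⟨fun i => if i = 0 then d else a (i - 1), fun i => ?_, ?_⟩
  · simp only
    split_ifs
    exacts [⟨hd, hdB⟩, ha _]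
  · have h1 : ∀ i, 1 ≤ (fun i => if i = 0 then d else a (i - 1)) i := fun i => by
      simp only
      split_ifs
      exacts [hd, (ha _).1]
    rw [cfLimit_step h1,
      show tailSeq (fun i => if i = 0 then d else a (i - 1)) = a from funext fun i => by
        simp [tailSeq]]
    simp

/-! ### The extreme values for digits `1, …, 4` -/

/-- `[0; 4, 1, 4, 1, …]`. -/
def lowEnd : ℝ := (√2 - 1) / 2

/-- `[0; 1, 4, 1, 4, …]`. -/
def highEnd : ℝ := 2 * (√2 - 1)

theorem lowEnd_bounds : 207 / 1000 < lowEnd ∧ lowEnd < 208 / 1000 ∧ highEnd = 4 * lowEnd := by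
  have h1 : (1414 : ℝ) / 1000 < √2 := by rw [Real.lt_sqrt (by norm_num)]; norm_num
  have h2 : √2 < 1415 / 1000 := by rw [Real.sqrt_lt' (by norm_num)]; norm_num
  unfold lowEnd highEnd
  exact ⟨by linarith, by linarith, by ring⟩

theorem ends_eq : 1 / (4 + highEnd) = lowEnd ∧ 1 / (1 + lowEnd) = highEnd := by
  have h := Real.mul_self_sqrt (show (0 : ℝ) ≤ 2 by norm_num)
  obtain ⟨h1, h2, h3⟩ := lowEnd_bounds
  constructor
  · rw [div_eq_iff (by linarith)]
    unfold lowEnd highEnd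
    linarith
  · rw [div_eq_iff (by linarith)]
    unfold lowEnd highEnd
    linarith

/-- The digits `4, 1, 4, 1, …`. -/
def alternating (i : ℕ) : ℕ := if i % 2 = 0 then 4 else 1

theorem lowEnd_mem : lowEnd ∈ boundedSet 4 := by
  have ha : ∀ i, 1 ≤ alternating i := fun i => by unfold alternating; split_ifs <;> norm_num
  have e1 := cfLimit_step ha
  have e2 := cfLimit_step (one_le_tailSeq ha)
  rw [show tailSeq (tailSeq alternating) = alternating from funext fun i => by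
    simp [tailSeq, alternating, Nat.add_assoc]] at e2
  norm_num [alternating, tailSeq] at e1 e2
  obtain ⟨x, hx⟩ : ∃ x, x = cfLimit alternating := ⟨_, rfl⟩
  have hx0 : 0 < x := hx ▸ cfLimit_pos ha
  refine ⟨alternating, fun i => ⟨ha i, by unfold alternating; split_ifs <;> norm_num⟩, ?_⟩
  rw [← hx]
  have h3 : x * (4 + 1 / (1 + x)) = 1 := by
    have e : x = 1 / (4 + 1 / (1 + x)) := by
      rw [hx]
      nth_rewrite 1 [e1]
      rw [e2]
      norm_num
    have h4 : 0 < 4 + 1 / (1 + x) := by positivity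
    nth_rewrite 1 [e]
    field_simp
  have h5 : 4 * x ^ 2 + 4 * x = 1 := by
    field_simp at h3
    linarith
  have h := Real.mul_self_sqrt (show (0 : ℝ) ≤ 2 by norm_num)
  obtain ⟨h1, -, -⟩ := lowEnd_bounds
  have h6 : (x - lowEnd) * (x + lowEnd + 1) = 0 := by
    unfold lowEnd
    linear_combination h5 / 4 - h / 4
  rcases mul_eq_zero.1 h6 with h7 | h7 <;> linarith

theorem highEnd_mem : highEnd ∈ boundedSet 4 := by
  have h := one_div_add_mem_boundedSet (d := 1) le_rfl (by norm_num : 1 ≤ 4) lowEnd_mem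
  rwa [Nat.cast_one, ends_eq.2] at h

theorem boundedSet_subset : boundedSet 4 ⊆ Set.Icc lowEnd highEnd := by
  rintro x ⟨a, ha, rfl⟩
  obtain ⟨h1, h2, h3⟩ := lowEnd_bounds
  obtain ⟨e1, e2⟩ := ends_eq
  have key : ∀ (n : ℕ) (a : ℕ → ℕ), (∀ i, 1 ≤ a i ∧ a i ≤ 4) →
      cfVal n a lowEnd ∈ Set.Icc lowEnd highEnd := by
    intro n
    induction n with
    | zero => exact fun a _ => ⟨le_rfl, by simp only [cfVal]; linarith⟩
    | succ n ih =>
      intro a ha
      obtain ⟨h4, h5⟩ := ih (tailSeq a) fun i => ha _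
      have h6 : (1 : ℝ) ≤ a 0 := by exact_mod_cast (ha 0).1
      have h7 : (a 0 : ℝ) ≤ 4 := by exact_mod_cast (ha 0).2
      rw [cfVal]
      exact ⟨le_of_eq_of_le e1.symm (one_div_le_one_div_of_le (by linarith) (by linarith)),
        (one_div_le_one_div_of_le (by linarith) (by linarith)).trans e2.le⟩
  have ha1 : ∀ i, 1 ≤ a i := fun i => (ha i).1
  have hlim : Tendsto (fun n => cfVal n a lowEnd) atTop (𝓝 (cfLimit a)) := by
    refine tendsto_of_tendsto_of_dist (tendsto_cfVal ha1) (squeeze_zero (fun n => dist_nonneg)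
      (g := fun n => 2 * (1 / 2 : ℝ) ^ n) (fun n => ?_) ?_)
    · rw [Real.dist_eq]
      refine (abs_cfVal_sub_le n ha1 ⟨le_rfl, zero_le_one⟩ ⟨by linarith, by linarith⟩).trans
        (mul_le_of_le_one_right (by positivity) ?_)
      rw [zero_sub, abs_neg, abs_of_nonneg (by linarith)]
      linarith
    · simpa using (tendsto_pow_atTop_nhds_zero_of_lt_one (by norm_num : (0 : ℝ) ≤ 1 / 2)
        (by norm_num)).const_mul 2
  exact isClosed_Icc.mem_of_tendsto hlim (Eventually.of_forall fun n => key n a ha)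

end FA.HallRay
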