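import Fermat.Agent.HallRay.Digits
import Fermat.Agent.Root.SummaryMarkovMinima

/-!
# The Lagrange spectrum

For `α = [0; a₀, a₁, …]` the upper limit of `1 / (q ‖q α‖)` is that of
`aₙ + [0; aₙ₋₁, …, a₀] + [0; aₙ₊₁, …]`, by the best approximation property of the convergents.
-/

set_option autoImplicit false

noncomputable section

namespace FA.HallRay

open Filter Topology

/-- `1 / (q ‖q α‖)`. -/
def lagrangeTerm (α : ℝ) (q : ℕ) : ℝ := 1 / ((q : ℝ) * |q * α - round ((q : ℝ) * α)|)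

/-- The Lagrange spectrum. -/
def lagrangeSpectrum : Set ℝ :=
  {x | ∃ α : ℝ, Irrational α ∧
    limsup (fun q => (lagrangeTerm α q : EReal)) atTop = (x : EReal)}

/-- The denominators. -/
def cfDen (a : ℕ → ℕ) : ℕ → ℕ
  | 0 => 1
  | 1 => a 0
  | n + 2 => a (n + 1) * cfDen a (n + 1) + cfDen a n

/-- The numerators. -/
def cfNum (a : ℕ → ℕ) : ℕ → ℕ
  | 0 => 0
  | 1 => 1
  | n + 2 => a (n + 1) * cfNum a (n + 1) + cfNum a n

/-- `[0; aₙ, aₙ₊₁, …]`. -/
def tailVal (a : ℕ → ℕ) (n : ℕ) : ℝ := cfLimit (shiftSeq a n)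

/-- The error of the `n`-th convergent. -/
def cfErr (a : ℕ → ℕ) : ℕ → ℝ
  | 0 => tailVal a 0
  | n + 1 => cfErr a n * tailVal a (n + 1)

/-- `[0; aₙ₋₁, …, a₀]`. -/
def revVal (a : ℕ → ℕ) (n : ℕ) : ℝ := cfVal n (fun i => a (n - 1 - i)) 0

/-- `aₙ + [0; aₙ₋₁, …, a₀] + [0; aₙ₊₁, …]`. -/
def localValue (a : ℕ → ℕ) (n : ℕ) : ℝ := a n + revVal a n + tailVal a (n + 1)

variable {a : ℕ → ℕ} (ha : ∀ i, 1 ≤ a i)
include ha

theorem tailVal_mem (n : ℕ) : 0 < tailVal a n ∧ tailVal a n < 1 :=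
  ⟨cfLimit_pos fun _ => ha _, cfLimit_lt_one fun _ => ha _⟩

theorem tailVal_step (n : ℕ) : tailVal a n * ((a n : ℝ) + tailVal a (n + 1)) = 1 := by
  have h : tailVal a n = 1 / ((a n : ℝ) + tailVal a (n + 1)) := by
    rw [tailVal, cfLimit_step (a := shiftSeq a n) fun _ => ha _, tailVal,
      show tailSeq (shiftSeq a n) = shiftSeq a (n + 1) from funext fun i => by
        simp [tailSeq, shiftSeq, Nat.add_assoc, Nat.add_comm 1 i]]
    simp [shiftSeq]
  have := (tailVal_mem ha (n + 1)).1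
  have : (0 : ℝ) < (a n : ℝ) + tailVal a (n + 1) := by positivity
  rw [h, div_mul_cancel₀ _ this.ne']

theorem cfErr_pos : ∀ n, 0 < cfErr a n
  | 0 => (tailVal_mem ha 0).1
  | n + 1 => mul_pos (cfErr_pos n) (tailVal_mem ha _).1

theorem one_le_cfDen : ∀ n, 1 ≤ cfDen a n
  | 0 => le_rfl
  | 1 => ha 0
  | n + 2 => le_add_left (one_le_cfDen n)

theorem le_cfDen : ∀ n, n ≤ cfDen a n
  | 0 => Nat.zero_le _
  | 1 => one_le_cfDen ha 1
  | n + 2 => by
    have h1 := le_cfDen (n + 1)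
    have h2 := one_le_cfDen ha n
    have h3 : cfDen a (n + 1) ≤ a (n + 1) * cfDen a (n + 1) := Nat.le_mul_of_pos_left _ (ha _)
    rw [cfDen]
    omega

theorem cfDen_le_succ : ∀ n, cfDen a n ≤ cfDen a (n + 1)
  | 0 => one_le_cfDen ha 1
  | _ + 1 => le_add_right (Nat.le_mul_of_pos_left _ (ha _))

theorem approx_eq : ∀ n,
    (cfDen a n : ℝ) * cfLimit a - cfNum a n = (-1) ^ n * cfErr a n ∧
    (cfDen a (n + 1) : ℝ) * cfLimit a - cfNum a (n + 1) = (-1) ^ (n + 1) * cfErr a (n + 1)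
  | 0 => by
    have h0 : tailVal a 0 = cfLimit a := by
      rw [tailVal]; congr 1; funext i; simp [shiftSeq]
    have h := tailVal_step ha 0
    simp only [cfDen, cfNum, cfErr, h0] at *
    constructor
    · simp
    · push_cast
      linear_combination h
  | n + 1 => by
    obtain ⟨h1, h2⟩ := approx_eq n
    refine ⟨h2, ?_⟩
    have h := tailVal_step ha (n + 1)
    simp only [cfDen, cfNum, cfErr] at *
    push_cast
    linear_combination (a (n + 1) : ℝ) * h2 + h1 - (-1) ^ n * cfErr a n * h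

theorem cfDen_mul_cfErr : ∀ n,
    cfErr a n * ((cfDen a (n + 1) : ℝ) + tailVal a (n + 1) * cfDen a n) = 1
  | 0 => by
    simp only [cfErr, cfDen, Nat.cast_one, mul_one]
    exact tailVal_step ha 0
  | n + 1 => by
    have h1 := cfDen_mul_cfErr n
    have h := tailVal_step ha (n + 1)
    simp only [cfDen, cfErr] at *
    push_cast
    linear_combination h1 + cfErr a n * cfDen a (n + 1) * h

theorem revVal_mem (n : ℕ) : revVal a n ∈ Set.Icc (0 : ℝ) 1 :=
  cfVal_mem_unit n (fun _ => ha _) ⟨le_rfl, zero_le_one⟩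

theorem revVal_succ (n : ℕ) : revVal a (n + 1) = 1 / ((a n : ℝ) + revVal a n) := by
  rw [revVal, cfVal, revVal,
    show tailSeq (fun i => a (n + 1 - 1 - i)) = fun i => a (n - 1 - i) from funext fun i => by
      simp [tailSeq, Nat.sub_sub, Nat.add_comm 1 i]]
  simp

theorem cfDen_succ_eq : ∀ n, (cfDen a (n + 1) : ℝ) = ((a n : ℝ) + revVal a n) * cfDen a n
  | 0 => by simp [cfDen, revVal, cfVal]
  | n + 1 => by
    have h1 : (1 : ℝ) ≤ a n := by exact_mod_cast ha n
    have h2 := (revVal_mem ha n).1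
    rw [revVal_succ ha, show cfDen a (n + 1 + 1) = a (n + 1) * cfDen a (n + 1) + cfDen a n from rfl]
    push_cast
    rw [add_mul, cfDen_succ_eq n]
    field_simp

theorem localValue_eq (n : ℕ) : localValue a n = 1 / ((cfDen a n : ℝ) * cfErr a n) := by
  have h := cfDen_mul_cfErr ha n
  rw [cfDen_succ_eq ha n] at h
  have := cfErr_pos ha n
  have : (0 : ℝ) < cfDen a n := by exact_mod_cast one_le_cfDen ha n
  rw [localValue, eq_div_iff (by positivity)]
  linear_combination h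

theorem cfNum_det : ∀ n, (cfNum a (n + 1) : ℤ) * cfDen a n - cfNum a n * cfDen a (n + 1) = (-1) ^ n
  | 0 => by simp [cfNum, cfDen]
  | n + 1 => by
    have h := cfNum_det n
    simp only [cfNum, cfDen]
    push_cast
    linear_combination -h

/-- **Best approximation.** -/
theorem cfErr_le (n : ℕ) {q : ℕ} (hq : 1 ≤ q) (hqn : q < cfDen a (n + 1)) (p : ℤ) :
    cfErr a n ≤ |(q : ℝ) * cfLimit a - p| := by
  obtain ⟨h1, h2⟩ := approx_eq ha n
  obtain ⟨u, hu⟩ : ∃ u : ℤ,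
      u = (-1) ^ n * ((q : ℤ) * cfNum a (n + 1) - p * cfDen a (n + 1)) := ⟨_, rfl⟩
  obtain ⟨v, hv⟩ : ∃ v : ℤ, v = (-1) ^ n * (p * cfDen a n - (q : ℤ) * cfNum a n) := ⟨_, rfl⟩
  have hs : ((-1 : ℤ) ^ n) * (-1) ^ n = 1 := by rw [← mul_pow]; norm_num
  have hdet := cfNum_det ha n
  have eq : (q : ℤ) = u * cfDen a n + v * cfDen a (n + 1) := by
    rw [hu, hv]
    linear_combination (-(q : ℤ) * (-1) ^ n) * hdet - (q : ℤ) * hs
  have ep : p = u * cfNum a n + v * cfNum a (n + 1) := by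
    rw [hu, hv]
    linear_combination (-p * (-1) ^ n) * hdet - p * hs
  have hval : (q : ℝ) * cfLimit a - p =
      (-1) ^ n * ((u : ℝ) * cfErr a n - v * cfErr a (n + 1)) := by
    have e1 : (q : ℝ) = u * (cfDen a n : ℝ) + v * (cfDen a (n + 1) : ℝ) := by exact_mod_cast eq
    have e2 : (p : ℝ) = u * (cfNum a n : ℝ) + v * (cfNum a (n + 1) : ℝ) := by exact_mod_cast ep
    rw [e1, e2]
    linear_combination (u : ℝ) * h1 + (v : ℝ) * h2
  rw [hval, abs_mul, abs_pow, abs_neg, abs_one, one_pow, one_mul]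
  have hE := cfErr_pos ha n
  have hE' := cfErr_pos ha (n + 1)
  have hDn : (1 : ℤ) ≤ cfDen a n := by exact_mod_cast one_le_cfDen ha n
  have hDn' : (q : ℤ) < cfDen a (n + 1) := by exact_mod_cast hqn
  have hq' : (1 : ℤ) ≤ q := by exact_mod_cast hq
  rcases lt_trichotomy v 0 with hv0 | hv0 | hv0
  · have hu1 : 1 ≤ u := by nlinarith
    have hur : (1 : ℝ) ≤ u := by exact_mod_cast hu1
    have hvr : (v : ℝ) ≤ 0 := by exact_mod_cast hv0.le
    refine le_trans ?_ (le_abs_self _)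
    nlinarith
  · rw [hv0, Int.cast_zero, zero_mul, sub_zero, abs_mul, abs_of_pos hE]
    refine le_mul_of_one_le_left hE.le ?_
    have : u ≠ 0 := by
      rintro rfl
      rw [hv0] at eq
      simp at eq
      omega
    rw [← Int.cast_abs]
    exact_mod_cast Int.one_le_abs this
  · have hu1 : u ≤ -1 := by nlinarith
    have hur : (u : ℝ) ≤ -1 := by exact_mod_cast hu1
    have hvr : (0 : ℝ) ≤ v := by exact_mod_cast hv0.le
    refine le_trans ?_ (neg_le_abs _)
    nlinarith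

theorem irrational_cfLimit : Irrational (cfLimit a) := by
  rintro ⟨r, hr⟩
  obtain ⟨n, hn⟩ : ∃ n, r.den < cfDen a (n + 1) := ⟨r.den, le_cfDen ha _⟩
  have h := cfErr_le ha n r.pos hn r.num
  rw [← hr, mul_comm] at h
  have e : (r : ℝ) * (r.den : ℝ) = r.num := by exact_mod_cast Rat.mul_den_eq_num r
  rw [e, sub_self, abs_zero] at h
  linarith [cfErr_pos ha n]

/-- Each term is at most a local value. -/
theorem exists_lagrangeTerm_le {q : ℕ} (hq : 1 ≤ q) :
    ∃ n, q < cfDen a (n + 1) ∧ lagrangeTerm (cfLimit a) q ≤ localValue a n := by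
  classical
  have hex : ∃ m, q < cfDen a m := ⟨q + 1, le_cfDen ha (q + 1)⟩
  obtain ⟨h, hh⟩ : ∃ h : ℕ, q < cfDen a h ∧ ∀ m < h, ¬q < cfDen a m :=
    ⟨Nat.find hex, Nat.find_spec hex, fun m hm => Nat.find_min hex hm⟩
  have h0 : h ≠ 0 := by
    rintro rfl
    have := hh.1
    simp [cfDen] at this
    omega
  obtain ⟨n, rfl⟩ := Nat.exists_eq_succ_of_ne_zero h0
  refine ⟨n, hh.1, ?_⟩
  rw [localValue_eq ha, lagrangeTerm]
  have hE := cfErr_pos ha n
  have hD : (0 : ℝ) < cfDen a n := by exact_mod_cast one_le_cfDen ha n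
  exact one_div_le_one_div_of_le (by positivity) (mul_le_mul
    (Nat.cast_le.2 (not_lt.1 (hh.2 n n.lt_succ_self))) (cfErr_le ha n hq hh.1 _) hE.le
    (Nat.cast_nonneg q))

/-- Each local value is at most a term. -/
theorem localValue_le (n : ℕ) : localValue a n ≤ lagrangeTerm (cfLimit a) (cfDen a n) := by
  have hD : (0 : ℝ) < cfDen a n := by exact_mod_cast one_le_cfDen ha n
  rw [localValue_eq ha, lagrangeTerm]
  have hpos : 0 < |(cfDen a n : ℝ) * cfLimit a - round ((cfDen a n : ℝ) * cfLimit a)| := by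
    rw [abs_pos, sub_ne_zero]
    intro h
    exact ((irrational_cfLimit ha).natCast_mul (Nat.one_le_iff_ne_zero.1 (one_le_cfDen ha n))).ne_int
      _ h
  refine one_div_le_one_div_of_le (mul_pos hD hpos) (mul_le_mul_of_nonneg_left ?_ hD.le)
  refine (round_le _ (cfNum a n : ℤ)).trans (le_of_eq ?_)
  rw [Int.cast_natCast, (approx_eq ha n).1, abs_mul, abs_pow, abs_neg, abs_one, one_pow, one_mul,
    abs_of_pos (cfErr_pos ha n)]

/-- **A criterion.** -/
theorem mem_lagrangeSpectrum {x : ℝ} (hup : ∀ ε > 0, ∀ᶠ n in atTop, localValue a n ≤ x + ε)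
    (hlow : ∀ ε > 0, ∃ᶠ n in atTop, x - ε ≤ localValue a n) : x ∈ lagrangeSpectrum := by
  refine ⟨cfLimit a, irrational_cfLimit ha, le_antisymm ?_ ?_⟩
  · refine le_of_forall_gt_imp_ge_of_dense fun y hy => ?_
    obtain ⟨z, hxz, hzy⟩ := EReal.lt_iff_exists_real_btwn.1 hy
    rw [EReal.coe_lt_coe_iff] at hxz
    obtain ⟨n₀, hn₀⟩ := eventually_atTop.1 (hup (z - x) (sub_pos.2 hxz))
    refine limsup_le_of_le (by isBoundedDefault) ?_
    refine eventually_atTop.2 ⟨max 1 (cfDen a n₀), fun q hq => le_trans ?_ hzy.le⟩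
    rw [EReal.coe_le_coe_iff]
    obtain ⟨n, hn1, hn2⟩ := exists_lagrangeTerm_le ha (le_trans (le_max_left _ _) hq)
    refine hn2.trans ((hn₀ n ?_).trans (by linarith))
    by_contra hlt
    have hmono : ∀ i j, i ≤ j → cfDen a i ≤ cfDen a j := fun i j hij => by
      induction hij with
      | refl => exact le_rfl
      | step _ ih => exact ih.trans (cfDen_le_succ ha _)
    have := hmono (n + 1) n₀ (by omega)
    have := le_trans (le_max_right _ _) hq
    omega
  · refine le_of_forall_lt_imp_le_of_dense fun y hy => ?_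
    obtain ⟨z, hyz, hzx⟩ := EReal.lt_iff_exists_real_btwn.1 hy
    rw [EReal.coe_lt_coe_iff] at hzx
    refine le_limsup_of_frequently_le ?_ (by isBoundedDefault)
    rw [frequently_atTop]
    intro N
    obtain ⟨n, hn, hle⟩ := frequently_atTop.1 (hlow (x - z) (sub_pos.2 hzx)) N
    refine ⟨cfDen a n, hn.trans (le_cfDen ha n), hyz.le.trans ?_⟩
    rw [EReal.coe_le_coe_iff]
    linarith [localValue_le ha n]

omit ha

/-- **Hurwitz**: the spectrum starts at `√5`. -/
theorem sqrt_five_le {x : ℝ} (hx : x ∈ lagrangeSpectrum) : √5 ≤ x := by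
  obtain ⟨α, hα, h⟩ := hx
  rw [← EReal.coe_le_coe_iff, ← h]
  refine le_limsup_of_frequently_le (frequently_atTop.2 fun N => ?_) (by isBoundedDefault)
  obtain ⟨r, hr, hrN⟩ : ∃ r : ℚ, |α - r| < 1 / (√5 * (r.den : ℝ) ^ 2) ∧ N ≤ r.den := by
    by_contra hno
    push Not at hno
    refine FA.Summary.hurwitz_approximation hα ?_
    obtain ⟨B, hB⟩ : ∃ B : ℤ, (|α| + 1) * N ≤ B := ⟨⌈(|α| + 1) * N⌉, Int.le_ceil _⟩
    refine Set.Finite.subset (((Finset.Icc (-B) B) ×ˢ Finset.range N).image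
      fun z => (z.1 : ℚ) / z.2).finite_toSet fun r hr => ?_
    have hd := hno r hr
    refine Finset.mem_coe.2 (Finset.mem_image.2 ⟨(r.num, r.den), ?_, Rat.num_div_den r⟩)
    rw [Finset.mem_product, Finset.mem_Icc, Finset.mem_range, ← abs_le]
    refine ⟨?_, hd⟩
    have h1 : |(r : ℝ)| ≤ |α| + 1 := by
      have h5 : (1 : ℝ) ≤ √5 := Real.one_le_sqrt.2 (by norm_num)
      have h6 : (1 : ℝ) ≤ (r.den : ℝ) ^ 2 := one_le_pow₀ (by exact_mod_cast r.pos)
      have h7 : 1 / (√5 * (r.den : ℝ) ^ 2) ≤ 1 :=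
        div_le_one_of_le₀ (one_le_mul_of_one_le_of_one_le h5 h6) (by positivity)
      have h8 := abs_sub_abs_le_abs_sub (r : ℝ) α
      rw [abs_sub_comm (r : ℝ) α] at h8
      have := hr.out
      linarith
    have h2 : ((|r.num| : ℤ) : ℝ) ≤ (B : ℝ) := by
      refine le_trans ?_ hB
      have e : (r : ℝ) * (r.den : ℝ) = r.num := by exact_mod_cast Rat.mul_den_eq_num r
      rw [Int.cast_abs, ← e, abs_mul, Nat.abs_cast]
      exact mul_le_mul h1 (Nat.cast_le.2 hd.le) (Nat.cast_nonneg _) (by positivity)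
    exact_mod_cast h2
  refine ⟨r.den, hrN, ?_⟩
  rw [EReal.coe_le_coe_iff, lagrangeTerm]
  have hd : (0 : ℝ) < r.den := by exact_mod_cast r.pos
  have e : (r : ℝ) * (r.den : ℝ) = r.num := by exact_mod_cast Rat.mul_den_eq_num r
  have hpos : 0 < |(r.den : ℝ) * α - round ((r.den : ℝ) * α)| := by
    rw [abs_pos, sub_ne_zero]
    exact fun h => (hα.natCast_mul r.den_nz).ne_int _ h
  rw [le_div_iff₀ (mul_pos hd hpos)]
  have h2 := round_le ((r.den : ℝ) * α) r.num
  have h3 : |(r.den : ℝ) * α - r.num| = (r.den : ℝ) * |α - r| := by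
    rw [← e, mul_comm (r : ℝ), ← mul_sub, abs_mul, abs_of_pos hd]
  rw [lt_div_iff₀ (by positivity)] at hr
  have h4 := mul_le_mul_of_nonneg_left (h3 ▸ h2) (show 0 ≤ √5 * (r.den : ℝ) by positivity)
  linarith

end FA.HallRay
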