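import Fermat.Agent.HallRay.Cylinders
import Fermat.Agent.HallRay.Spectrum

/-!
# Hall's ray

`x ≥ 6` is `a + β + γ` with `a ≥ 5` and `β, γ` of digits `≤ 4`; the digits `γ` backwards, `a`, `β`
in longer and longer blocks give an `α` with Lagrange number `x`.
-/

set_option autoImplicit false

noncomputable section

namespace FA.HallRay

open Filter Topology

/-- The blocks `c (k-1), …, c 0, A, b 0, …, b (k-1)`. -/
def blockSeq (A : ℕ) (b c : ℕ → ℕ) (n : ℕ) : ℕ :=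
  if n - Nat.sqrt n ^ 2 < Nat.sqrt n then c (Nat.sqrt n - 1 - (n - Nat.sqrt n ^ 2))
  else if n - Nat.sqrt n ^ 2 = Nat.sqrt n then A
  else b (n - Nat.sqrt n ^ 2 - Nat.sqrt n - 1)

theorem sqrt_block {k i : ℕ} (hi : i ≤ 2 * k) : Nat.sqrt (k ^ 2 + i) = k := by
  symm
  rw [Nat.eq_sqrt']
  constructor
  · omega
  · rw [show (k + 1) ^ 2 = k ^ 2 + 2 * k + 1 by ring]
    omega

theorem blockSeq_centre (A : ℕ) (b c : ℕ → ℕ) (k : ℕ) : blockSeq A b c (k ^ 2 + k) = A := by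
  rw [blockSeq, sqrt_block (by omega), Nat.add_sub_cancel_left]
  simp

theorem blockSeq_after (A : ℕ) (b c : ℕ → ℕ) {k i : ℕ} (hi : i < k) :
    blockSeq A b c (k ^ 2 + k + 1 + i) = b i := by
  rw [show k ^ 2 + k + 1 + i = k ^ 2 + (k + 1 + i) by ring, blockSeq, sqrt_block (by omega),
    Nat.add_sub_cancel_left, if_neg (by omega), if_neg (by omega)]
  congr 1
  omega

theorem blockSeq_before (A : ℕ) (b c : ℕ → ℕ) {k i : ℕ} (hi : i < k) :
    blockSeq A b c (k ^ 2 + k - 1 - i) = c i := by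
  rw [show k ^ 2 + k - 1 - i = k ^ 2 + (k - 1 - i) by omega, blockSeq, sqrt_block (by omega),
    Nat.add_sub_cancel_left, if_pos (by omega)]
  congr 1
  omega

theorem blockSeq_cases (A : ℕ) (b c : ℕ → ℕ) (n : ℕ) :
    (∃ k, n = k ^ 2 + k) ∨ ∃ i, blockSeq A b c n = b i ∨ blockSeq A b c n = c i := by
  unfold blockSeq
  split_ifs with h1 h2
  · exact Or.inr ⟨_, Or.inr rfl⟩
  · refine Or.inl ⟨Nat.sqrt n, ?_⟩
    have := Nat.sqrt_le' n
    omega
  · exact Or.inr ⟨_, Or.inl rfl⟩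

/-- **The sequences of Hall.** -/
theorem block_mem_spectrum {A : ℕ} (hA : 1 ≤ A) {b c : ℕ → ℕ} (hb : ∀ i, 1 ≤ b i ∧ b i ≤ 4)
    (hc : ∀ i, 1 ≤ c i ∧ c i ≤ 4) (h6 : 6 ≤ (A : ℝ) + cfLimit b + cfLimit c) :
    (A : ℝ) + cfLimit b + cfLimit c ∈ lagrangeSpectrum := by
  obtain ⟨s, hs⟩ : ∃ s, s = blockSeq A b c := ⟨_, rfl⟩
  have hs1 : ∀ i, 1 ≤ s i := fun i => by
    rcases blockSeq_cases A b c i with ⟨k, rfl⟩ | ⟨j, h | h⟩ <;> rw [hs]
    exacts [(blockSeq_centre A b c k).symm ▸ hA, h.symm ▸ (hb j).1, h.symm ▸ (hc j).1]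
  have hb1 : ∀ i, 1 ≤ b i := fun i => (hb i).1
  have hc1 : ∀ i, 1 ≤ c i := fun i => (hc i).1
  obtain ⟨x, hx⟩ : ∃ x, x = (A : ℝ) + cfLimit b + cfLimit c := ⟨_, rfl⟩
  rw [← hx] at h6 ⊢
  have hcentre : ∀ k, |localValue s (k ^ 2 + k) - x| ≤ 6 * (1 / 2 : ℝ) ^ k := by
    intro k
    have h1 : |tailVal s (k ^ 2 + k + 1) - cfLimit b| ≤ 2 * (1 / 2 : ℝ) ^ k :=
      abs_cfLimit_sub_le (fun _ => hs1 _) hb1 fun i hi => hs ▸ blockSeq_after A b c hi
    obtain ⟨r, hr⟩ : ∃ r : ℕ → ℕ, r = fun i => s (k ^ 2 + k - 1 - i) := ⟨_, rfl⟩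
    have hr1 : ∀ i, 1 ≤ r i := fun i => hr ▸ hs1 _
    have h2 : |cfLimit r - cfLimit c| ≤ 2 * (1 / 2 : ℝ) ^ k :=
      abs_cfLimit_sub_le hr1 hc1 fun i hi => by rw [hr, hs]; exact blockSeq_before A b c hi
    have h3 : |revVal s (k ^ 2 + k) - cfLimit r| ≤ 2 * (1 / 2 : ℝ) ^ k := by
      rw [revVal, ← hr, cfLimit_unfold (k ^ 2 + k) hr1]
      have hy := cfLimit_mem_unit (a := shiftSeq r (k ^ 2 + k)) fun _ => hr1 _
      refine (abs_cfVal_sub_le _ hr1 ⟨le_rfl, zero_le_one⟩ hy).trans ?_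
      refine (mul_le_of_le_one_right (by positivity) ?_).trans (mul_le_mul_of_nonneg_left
        (pow_le_pow_of_le_one (by norm_num) (by norm_num) (Nat.le_add_left k _)) (by norm_num))
      rw [zero_sub, abs_neg, abs_of_nonneg hy.1]
      exact hy.2
    rw [localValue, hx, hs, blockSeq_centre, ← hs]
    rw [abs_le] at h1 h2 h3 ⊢
    constructor <;> linarith
  have hlim : Tendsto (fun k : ℕ => 6 * (1 / 2 : ℝ) ^ k) atTop (𝓝 0) := by
    simpa using (tendsto_pow_atTop_nhds_zero_of_lt_one (by norm_num : (0 : ℝ) ≤ 1 / 2)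
      (by norm_num)).const_mul 6
  refine mem_lagrangeSpectrum hs1 (fun ε hε => ?_) fun ε hε => ?_
  · obtain ⟨k₀, hk₀⟩ := eventually_atTop.1 (hlim.eventually (eventually_le_nhds hε))
    refine eventually_atTop.2 ⟨k₀ ^ 2 + k₀, fun n hn => ?_⟩
    rcases blockSeq_cases A b c n with ⟨k, rfl⟩ | ⟨j, h⟩
    · have hk : k₀ ≤ k := by
        by_contra hlt
        have := Nat.pow_le_pow_left (show k ≤ k₀ by omega) 2
        omega
      have := hk₀ k hk
      have := (abs_le.1 (hcentre k)).2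
      linarith
    · have h4 : (s n : ℝ) ≤ 4 := by
        have : s n ≤ 4 := by
          rw [hs]
          rcases h with h | h <;> rw [h]
          exacts [(hb j).2, (hc j).2]
        exact_mod_cast this
      have := (revVal_mem hs1 n).2
      have := (tailVal_mem hs1 (n + 1)).2
      rw [localValue]
      linarith
  · refine frequently_atTop.2 fun N => ?_
    obtain ⟨k₀, hk₀⟩ := eventually_atTop.1 (hlim.eventually (eventually_le_nhds hε))
    obtain ⟨k, hk⟩ : ∃ k, k = max N k₀ := ⟨_, rfl⟩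
    refine ⟨k ^ 2 + k, by omega, ?_⟩
    have := hk₀ k (hk ▸ le_max_right _ _)
    have := (abs_le.1 (hcentre k)).1
    linarith

theorem sqrt_two_bounds : (1414 : ℝ) / 1000 < √2 ∧ √2 < 1415 / 1000 :=
  ⟨by rw [Real.lt_sqrt (by norm_num)]; norm_num, by rw [Real.sqrt_lt' (by norm_num)]; norm_num⟩

/-- **Every number is an integer plus two values with digits `≤ 4`.** -/
theorem exists_decomposition (x : ℝ) :
    ∃ (k : ℤ) (u v : ℝ), u ∈ boundedSet 4 ∧ v ∈ boundedSet 4 ∧ x = k + u + v := by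
  obtain ⟨h1, h2⟩ := sqrt_two_bounds
  obtain ⟨k, hk⟩ : ∃ k, k = ⌊x - (√2 - 1)⌋ := ⟨_, rfl⟩
  have a1 := Int.floor_le (x - (√2 - 1))
  have a2 := Int.lt_floor_add_one (x - (√2 - 1))
  rw [← hk] at a1 a2
  obtain ⟨u, hu, v, hv, huv⟩ := (hall_sum_set (x - k)).2 ⟨by linarith, by linarith⟩
  exact ⟨k, u, v, hu, hv, by linarith⟩

/-- **Hall's ray.** -/
theorem hall_ray_mem {x : ℝ} (hx : 6 ≤ x) : x ∈ lagrangeSpectrum := by
  obtain ⟨h1, h2⟩ := sqrt_two_bounds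
  obtain ⟨A, hA⟩ : ∃ A, A = ⌈x - 4 * (√2 - 1)⌉₊ := ⟨_, rfl⟩
  have a1 := Nat.le_ceil (x - 4 * (√2 - 1))
  have a2 := Nat.ceil_lt_add_one (show 0 ≤ x - 4 * (√2 - 1) by linarith)
  rw [← hA] at a1 a2
  have hA1 : 1 ≤ A := by
    have : (0 : ℝ) < A := by linarith
    exact_mod_cast this
  obtain ⟨u, ⟨b, hb, rfl⟩, v, ⟨c, hc, rfl⟩, huv⟩ :=
    (hall_sum_set (x - A)).2 ⟨by linarith, by linarith⟩
  have e : (A : ℝ) + cfLimit b + cfLimit c = x := by linarith
  rw [← e]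
  exact block_mem_spectrum hA1 hb hc (e ▸ hx)

/-- **The least point.** -/
theorem sqrt_five_mem : √5 ∈ lagrangeSpectrum := by
  have h1 : ∀ i : ℕ, 1 ≤ (fun _ : ℕ => 1) i := fun _ => le_rfl
  obtain ⟨x, hx⟩ : ∃ x, x = cfLimit fun _ : ℕ => 1 := ⟨_, rfl⟩
  have hx0 : 0 < x := hx ▸ cfLimit_pos h1
  have hstep : x = 1 / (1 + x) := by
    rw [hx]
    nth_rewrite 1 [cfLimit_step h1]
    simp only [Nat.cast_one]
    rfl
  have hsq : 1 + x + x = √5 := by
    have : x * (1 + x) = 1 := by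
      nth_rewrite 1 [hstep]
      field_simp
    symm
    rw [Real.sqrt_eq_iff_mul_self_eq (by norm_num) (by linarith)]
    linear_combination (-4 : ℝ) * this
  have hlim : Tendsto (fun n => localValue (fun _ : ℕ => 1) n) atTop (𝓝 √5) := by
    have h : Tendsto (fun n => cfVal n (fun _ : ℕ => 1) 0) atTop (𝓝 x) := hx ▸ tendsto_cfVal h1
    have h2 := ((h.const_add (1 : ℝ)).add_const x)
    rw [hsq] at h2
    refine h2.congr fun n => ?_
    simp [localValue, revVal, tailVal, hx,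
      show ∀ m, shiftSeq (fun _ : ℕ => 1) m = fun _ => 1 from fun m => rfl]
  refine mem_lagrangeSpectrum h1 (fun ε hε => hlim.eventually (eventually_le_nhds (by linarith)))
    fun ε hε => (hlim.eventually (eventually_ge_nhds (by linarith))).frequently

end FA.HallRay
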